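import Mathlib

/-!
helper76: Taylor series at `0` of a function `ℂ → ℂ`, bundled as a formal power series, with
multiplicativity and convergence on the open unit disc.
-/

set_option autoImplicit false

open Complex Filter Topology

namespace Fermat.Agent.S24.JQExp

/-- Taylor series at `0` of a function `ℂ → ℂ`, as a formal power series. -/
noncomputable def taylorPS (F : ℂ → ℂ) : PowerSeries ℂ :=
  .mk fun m => (m.factorial : ℂ)⁻¹ * iteratedDeriv m F 0

theorem taylorPS_coeff (F : ℂ → ℂ) (m : ℕ) :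
    (taylorPS F).coeff m = (m.factorial : ℂ)⁻¹ * iteratedDeriv m F 0 := by
  simp [taylorPS]

theorem iteratedDeriv_zero_eq_taylorPS_coeff (F : ℂ → ℂ) (m : ℕ) :
    iteratedDeriv m F 0 = (m.factorial : ℂ) * (taylorPS F).coeff m := by
  rw [taylorPS_coeff, ← mul_assoc, mul_inv_cancel₀ (by exact_mod_cast m.factorial_ne_zero), one_mul]

theorem taylorPS_congr {F G : ℂ → ℂ} (h : F =ᶠ[𝓝 0] G) : taylorPS F = taylorPS G := by
  ext m
  rw [taylorPS_coeff, taylorPS_coeff, h.iteratedDeriv_eq m]

theorem taylorPS_mul {F G : ℂ → ℂ} (hF : AnalyticAt ℂ F 0) (hG : AnalyticAt ℂ G 0) :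
    taylorPS (F * G) = taylorPS F * taylorPS G := by
  ext n
  simp only [taylorPS_coeff, iteratedDeriv_mul hF.contDiffAt hG.contDiffAt, Finset.mul_sum,
    PowerSeries.coeff_mul, Finset.Nat.sum_antidiagonal_eq_sum_range_succ_mk, Nat.succ_eq_add_one]
  refine Finset.sum_congr rfl fun i hi ↦ ?_
  rw [Nat.cast_choose _ (by grind)]
  field_simp [Nat.factorial_ne_zero]

theorem taylorPS_fun_mul {F G : ℂ → ℂ} (hF : AnalyticAt ℂ F 0) (hG : AnalyticAt ℂ G 0) :
    taylorPS (fun q => F q * G q) = taylorPS F * taylorPS G :=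
  taylorPS_mul hF hG

theorem taylorPS_one : taylorPS (fun _ => (1 : ℂ)) = 1 := by
  ext m
  rw [taylorPS_coeff, iteratedDeriv_const]
  rcases m with _ | m
  · simp
  · simp [PowerSeries.coeff_one]

theorem taylorPS_pow {F : ℂ → ℂ} (hF : AnalyticAt ℂ F 0) (n : ℕ) :
    taylorPS (fun q => F q ^ n) = taylorPS F ^ n := by
  induction n with
  | zero => simpa using taylorPS_one
  | succ n ih =>
    have : (fun q => F q ^ (n + 1)) = (fun q => F q ^ n) * F := by
      funext q; simp [pow_succ]
    rw [this, taylorPS_mul (hF.fun_pow n) hF, ih, pow_succ]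

theorem taylorPS_sub {F G : ℂ → ℂ} (hF : AnalyticAt ℂ F 0) (hG : AnalyticAt ℂ G 0) :
    taylorPS (fun q => F q - G q) = taylorPS F - taylorPS G := by
  ext m
  have := iteratedDeriv_sub (n := m) (x := (0 : ℂ)) hF.contDiffAt hG.contDiffAt
  simp only [taylorPS_coeff, map_sub]
  rw [show (fun q => F q - G q) = F - G from rfl, this]
  ring

theorem taylorPS_X_pow (k : ℕ) : taylorPS (fun q => q ^ k) = PowerSeries.X ^ k := by
  ext m
  rw [taylorPS_coeff, iteratedDeriv_fun_pow_zero, PowerSeries.coeff_X_pow]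
  split_ifs with h
  · subst h
    rw [inv_mul_cancel₀ (by exact_mod_cast m.factorial_ne_zero)]
  · simp

theorem taylorPS_X : taylorPS (fun q => q) = PowerSeries.X := by
  simpa using taylorPS_X_pow 1

theorem taylorPS_prod {ι : Type*} (s : Finset ι) {F : ι → ℂ → ℂ}
    (hF : ∀ i ∈ s, AnalyticAt ℂ (F i) 0) :
    taylorPS (fun q => ∏ i ∈ s, F i q) = ∏ i ∈ s, taylorPS (F i) := by
  classical
  induction s using Finset.induction_on with
  | empty => simpa using taylorPS_one
  | insert a s ha ih =>
    have h1 : (fun q => ∏ i ∈ insert a s, F i q) = F a * (fun q => ∏ i ∈ s, F i q) := by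
      funext q; simp [Finset.prod_insert ha]
    have h2 : AnalyticAt ℂ (fun q => ∏ i ∈ s, F i q) 0 :=
      Finset.analyticAt_fun_prod s fun i hi => hF i (Finset.mem_insert_of_mem hi)
    rw [h1, taylorPS_mul (hF a (Finset.mem_insert_self a s)) h2,
      ih fun i hi => hF i (Finset.mem_insert_of_mem hi), Finset.prod_insert ha]

/-- A function differentiable on the open unit disc is the sum of its Taylor series there. -/
theorem hasSum_taylorPS {F : ℂ → ℂ} (hF : DifferentiableOn ℂ F (Metric.ball 0 1)) {q : ℂ}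
    (hq : ‖q‖ < 1) : HasSum (fun n : ℕ => (taylorPS F).coeff n * q ^ n) (F q) := by
  have h := Complex.hasSum_taylorSeries_on_ball hF (z := q) (by simpa using hq)
  have heq : (fun n : ℕ => (taylorPS F).coeff n * q ^ n) =
      fun n : ℕ => ((n.factorial : ℂ))⁻¹ • (q - 0) ^ n • iteratedDeriv n F 0 := by
    funext n
    rw [taylorPS_coeff, sub_zero, smul_eq_mul, smul_eq_mul]
    ring
  rw [heq]
  exact h


/-- A function given by a convergent power series on the unit disc has that power series. -/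
theorem hasFPowerSeriesOnBall_of_hasSum {F : ℂ → ℂ} {c : ℕ → ℂ}
    (h : ∀ q : ℂ, ‖q‖ < 1 → HasSum (fun n : ℕ => c n * q ^ n) (F q)) :
    HasFPowerSeriesOnBall F (.ofScalars ℂ c) 0 1 := by
  constructor
  · refine le_of_forall_lt_imp_le_of_dense fun r hr ↦ ?_
    lift r to NNReal using hr.ne_top
    apply FormalMultilinearSeries.le_radius_of_summable
    have hr' : ‖((r : ℝ) : ℂ)‖ < 1 := by
      rw [Complex.norm_real, Real.norm_eq_abs, NNReal.abs_eq]
      exact_mod_cast hr
    have := (h ((r : ℝ) : ℂ) hr').summable.norm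
    simpa [smul_eq_mul, norm_mul, mul_comm, mul_left_comm, mul_assoc] using this
  · simp
  · intro y hy
    rw [← ENNReal.coe_one, Metric.eball_coe, NNReal.coe_one, mem_ball_zero_iff] at hy
    simpa [mul_comm] using h y hy

/-- Uniqueness of Taylor coefficients: a function given by a convergent power series on the unit
disc has that series as its Taylor series. -/
theorem taylorPS_eq_of_hasSum {F : ℂ → ℂ} (P : PowerSeries ℂ)
    (h : ∀ q : ℂ, ‖q‖ < 1 → HasSum (fun n : ℕ => P.coeff n * q ^ n) (F q)) :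
    taylorPS F = P := by
  ext m
  have H := hasFPowerSeriesOnBall_of_hasSum h
  have h1 := H.hasFPowerSeriesAt
  have h2 := H.analyticAt.hasFPowerSeriesAt
  have := congr_arg (FormalMultilinearSeries.coeff · m) (h1.eq_formalMultilinearSeries h2)
  simp only [FormalMultilinearSeries.coeff_ofScalars] at this
  rw [taylorPS_coeff, this, div_eq_mul_inv, mul_comm]

/-- Taylor series of `q ↦ G (q ^ d)`. -/
theorem taylorPS_comp_pow {G : ℂ → ℂ} (hG : DifferentiableOn ℂ G (Metric.ball 0 1)) (d : ℕ)
    (hd : d ≠ 0) : taylorPS (fun q => G (q ^ d)) = (taylorPS G).expand d hd := by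
  apply taylorPS_eq_of_hasSum
  intro q hq
  have hqd : ‖q ^ d‖ < 1 := by
    rw [norm_pow]
    exact pow_lt_one₀ (norm_nonneg _) hq hd
  have h := hasSum_taylorPS hG hqd
  have hinj : Function.Injective fun n : ℕ => d * n :=
    fun a b hab => Nat.eq_of_mul_eq_mul_left (Nat.pos_of_ne_zero hd) hab
  rw [← hinj.hasSum_iff]
  · convert h using 2 with n
    simp only [Function.comp_apply]
    rw [PowerSeries.coeff_expand_mul, pow_mul]
  · intro k hk
    rw [PowerSeries.coeff_expand_of_not_dvd, zero_mul]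
    intro hdk
    obtain ⟨n, rfl⟩ := hdk
    exact hk ⟨n, rfl⟩

end Fermat.Agent.S24.JQExp
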