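import Mathlib
import Fermat.Prelude.Def_ModularCurve_X0
import Fermat.Agent.S24.JQExp.TaylorPS

/-!
helper76: the Taylor series of the analytic Euler product `∏ (1 - q^(n+1))` on the unit disc is
the formal product `ModularCurve.etaProd`.
-/

set_option autoImplicit false

open Complex Filter Topology

namespace Fermat.Agent.S24.JQExp

/-- Locally uniform limits of entire functions: all iterated derivatives converge locally
uniformly. -/
theorem tendstoLocallyUniformlyOn_iteratedDeriv {ι : Type*} {p : Filter ι} [p.NeBot]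
    {F : ι → ℂ → ℂ} {f : ℂ → ℂ} {U : Set ℂ} (hU : IsOpen U)
    (hf : TendstoLocallyUniformlyOn F f p U) (hF : ∀ i, Differentiable ℂ (F i)) (n : ℕ) :
    TendstoLocallyUniformlyOn (fun i => iteratedDeriv n (F i)) (iteratedDeriv n f) p U := by
  induction n with
  | zero => simpa [iteratedDeriv_zero] using hf
  | succ n ih =>
    have hd : ∀ᶠ i in p, DifferentiableOn ℂ (iteratedDeriv n (F i)) U := by
      refine .of_forall fun i => ?_
      have hc : ContDiff ℂ (n + 1 : ℕ) (F i) := (hF i).contDiff
      exact (hc.differentiable_iteratedDeriv n (by exact_mod_cast Nat.lt_succ_self n)).differentiableOn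
    have := ih.deriv hd hU
    simpa [Function.comp_def, iteratedDeriv_succ] using this

/-- The analytic Euler function `q ↦ ∏ (1 - q^(n+1))`. -/
noncomputable def eulerFun (q : ℂ) : ℂ := ∏' n : ℕ, (1 - q ^ (n + 1))

theorem eulerFun_differentiableOn : DifferentiableOn ℂ eulerFun (Metric.ball (0 : ℂ) 1) :=
  ModularForm.differentiableOn_tprod_one_sub_pow

theorem eulerFun_analyticAt_zero : AnalyticAt ℂ eulerFun 0 :=
  eulerFun_differentiableOn.analyticAt (Metric.ball_mem_nhds 0 one_pos)

theorem eulerFun_ne_zero {q : ℂ} (hq : ‖q‖ < 1) : eulerFun q ≠ 0 := by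
  rw [eulerFun]
  have hs : Summable fun n : ℕ => ‖-q ^ (n + 1)‖ := by
    simpa using (summable_nat_add_iff 1).mpr (summable_geometric_of_lt_one (norm_nonneg _) hq)
  have := tprod_one_add_ne_zero_of_summable (f := fun n : ℕ => -q ^ (n + 1)) ?_ hs
  · simpa [sub_eq_add_neg] using this
  · intro i
    have h1 : ‖q ^ (i + 1)‖ < 1 := by
      rw [norm_pow]
      exact pow_lt_one₀ (norm_nonneg _) hq (by omega)
    intro h0
    have : q ^ (i + 1) = 1 := by linear_combination -h0
    rw [this] at h1
    simp at h1

theorem etaProd_eq_pentagonalSeries :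
    ModularCurve.etaProd = PowerSeries.pentagonalSeries ℤ :=
  PowerSeries.WithPiTopology.tprod_one_sub_X_pow ℤ

/-- The Taylor coefficients of the analytic Euler function are those of the formal product. -/
theorem taylorPS_eulerFun :
    taylorPS eulerFun = ModularCurve.etaProd.map (Int.castRingHom ℂ) := by
  ext n
  rw [PowerSeries.coeff_map]
  -- partial products
  set P : Finset ℕ → ℂ → ℂ := fun s q => ∏ i ∈ s, (1 - q ^ (i + 1)) with hP
  have hloc : TendstoLocallyUniformlyOn P eulerFun atTop (Metric.ball (0 : ℂ) 1) :=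
    ModularForm.multipliableLocallyUniformlyOn_one_sub_pow.hasProdLocallyUniformlyOn
  have hPd : ∀ s, Differentiable ℂ (P s) := fun s => by
    simp only [hP]; fun_prop
  have hlim := (tendstoLocallyUniformlyOn_iteratedDeriv Metric.isOpen_ball hloc hPd n).tendsto_at
    (Metric.mem_ball_self (one_pos) : (0 : ℂ) ∈ Metric.ball (0 : ℂ) 1)
  -- Taylor series of the partial products
  have hPs : ∀ s : Finset ℕ, taylorPS (P s) =
      (∏ i ∈ s, (1 - PowerSeries.X ^ (i + 1) : PowerSeries ℤ)).map (Int.castRingHom ℂ) := by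
    intro s
    simp only [hP]
    rw [taylorPS_prod s (fun i _ => by fun_prop), map_prod]
    refine Finset.prod_congr rfl fun i _ => ?_
    rw [taylorPS_sub (by fun_prop) (by fun_prop), taylorPS_one, taylorPS_X_pow]
    simp
  have hev : ∀ᶠ s : Finset ℕ in atTop, iteratedDeriv n (P s) 0 =
      (n.factorial : ℂ) * ((ModularCurve.etaProd.coeff n : ℤ) : ℂ) := by
    filter_upwards [PowerSeries.coeff_prod_one_sub_X_pow_eventually_eq ℤ n] with s hs
    rw [iteratedDeriv_zero_eq_taylorPS_coeff, hPs s, PowerSeries.coeff_map, hs,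
      etaProd_eq_pentagonalSeries]
    simp
  have hlim2 : Tendsto (fun s : Finset ℕ => iteratedDeriv n (P s) 0) atTop
      (𝓝 ((n.factorial : ℂ) * ((ModularCurve.etaProd.coeff n : ℤ) : ℂ))) :=
    tendsto_nhds_of_eventually_eq hev
  have := tendsto_nhds_unique hlim hlim2
  rw [taylorPS_coeff, this, ← mul_assoc,
    inv_mul_cancel₀ (by exact_mod_cast n.factorial_ne_zero), one_mul]
  simp

/-- The Euler function is the sum of the formal `etaProd` series on the unit disc. -/
theorem hasSum_eulerFun {q : ℂ} (hq : ‖q‖ < 1) :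
    HasSum (fun n : ℕ => ((ModularCurve.etaProd.coeff n : ℤ) : ℂ) * q ^ n) (eulerFun q) := by
  have h := hasSum_taylorPS eulerFun_differentiableOn hq
  simpa [taylorPS_eulerFun] using h

end Fermat.Agent.S24.JQExp
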