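import Mathlib
import Fermat.Prelude.Def_ModularCurve_X0
import Fermat.Prelude.Def_ModularCurve_LaurentCoeff
import Fermat.Agent.S24.JDef
import Fermat.Agent.S24.JQExp

/-!
helper76 (P-S24 Part III input): the `q`-expansion of `z ↦ j (d z)`.

For `m : ℍ → ℍ` with `(m z : ℂ) = d * z`:
* `qExpansion_discriminant_pow k : qExpansion 1 (Δ ^ k) = ((X * dedekindEtaUnit) ^ k).map _`
* `qExpansion_discriminant_pow_mul_jFn_scale :
    qExpansion 1 (fun z => Δ z ^ d * jFn (m z)) = (dedekindEtaUnit ^ d * jNum.expand d hd).map _`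
* `ofPowerSeries_eq_qExpand_jq_mul` : the resulting Laurent series identity with
  `coeffMap (algebraMap ℚ ℂ) (qExpand ℚ d jq)`.
-/

set_option autoImplicit false

open UpperHalfPlane hiding I
open Complex Filter Function Topology ModularForm EisensteinSeries
open scoped Real Manifold MatrixGroups

namespace Fermat.Agent.S24.JQExp

local notation "𝕢" => Periodic.qParam

local notation "Δ" => ModularForm.discriminant

/-- If `f τ = F (q(τ))` with `F` continuous at `0`, the cusp function of `f` is `F` on the disc. -/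
theorem cuspFunction_eqOn_of_comp_qParam {f : ℍ → ℂ} {F : ℂ → ℂ} (hF : ContinuousAt F 0)
    (hf : ∀ τ : ℍ, f τ = F (𝕢 1 τ)) : Set.EqOn (cuspFunction 1 f) F (Metric.ball 0 1) := by
  intro q hq
  have hq' : ‖q‖ < 1 := by simpa using hq
  have key : ∀ q : ℂ, ‖q‖ < 1 → q ≠ 0 → (f ∘ ofComplex) (Periodic.invQParam 1 q) = F q := by
    intro q hq hq0
    have him := Periodic.im_invQParam_pos_of_norm_lt_one one_pos hq hq0
    simp only [comp_apply, ofComplex_apply_of_im_pos him, hf]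
    congr 1
    exact Periodic.qParam_right_inv one_ne_zero hq0
  by_cases hq0 : q = 0
  · subst hq0
    have hev : ∀ᶠ q in 𝓝[≠] (0 : ℂ), F q = ((f ∘ ofComplex) ∘ Periodic.invQParam 1) q := by
      filter_upwards [self_mem_nhdsWithin,
        nhdsWithin_le_nhds (Metric.ball_mem_nhds (0 : ℂ) one_pos)] with q hq0 hq
      exact (key q (by simpa using hq) hq0).symm
    have ht : Tendsto ((f ∘ ofComplex) ∘ Periodic.invQParam 1) (𝓝[≠] 0) (𝓝 (F 0)) :=
      (hF.tendsto.mono_left nhdsWithin_le_nhds).congr' hev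
    simp only [cuspFunction, Periodic.cuspFunction, update_self]
    exact ht.limUnder_eq
  · rw [cuspFunction, Periodic.cuspFunction_eq_of_nonzero 1 _ hq0]
    exact key q hq' hq0

theorem qExpansion_eq_taylorPS_of_comp_qParam {f : ℍ → ℂ} {F : ℂ → ℂ} (hF : ContinuousAt F 0)
    (hf : ∀ τ : ℍ, f τ = F (𝕢 1 τ)) : qExpansion 1 f = taylorPS F := by
  rw [qExpansion_eq_taylorPS]
  exact taylorPS_congr ((cuspFunction_eqOn_of_comp_qParam hF hf).eventuallyEq_of_mem
    (Metric.ball_mem_nhds 0 one_pos))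

theorem tendsto_of_comp_qParam {f : ℍ → ℂ} {F : ℂ → ℂ} (hF : ContinuousAt F 0)
    (hf : ∀ τ : ℍ, f τ = F (𝕢 1 τ)) : Tendsto f atImInfty (𝓝 (F 0)) := by
  have hq : Tendsto (fun τ : ℍ => 𝕢 1 τ) atImInfty (𝓝 0) :=
    qParam_tendsto_atImInfty one_pos
  exact (hF.tendsto.comp hq).congr fun τ => (hf τ).symm

theorem isBoundedAtImInfty_of_comp_qParam {f : ℍ → ℂ} {F : ℂ → ℂ} (hF : ContinuousAt F 0)
    (hf : ∀ τ : ℍ, f τ = F (𝕢 1 τ)) : IsBoundedAtImInfty f :=
  (tendsto_of_comp_qParam hF hf).isBigO_one ℝ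

/-- `q(d z) = q(z)^d`. -/
theorem qParam_scale {d : ℕ} (m : ℍ → ℍ) (hm : ∀ z : ℍ, (m z : ℂ) = (d : ℂ) * z) (z : ℍ) :
    𝕢 1 (m z : ℂ) = 𝕢 1 (z : ℂ) ^ d := by
  simp only [Periodic.qParam, ofReal_one, div_one, hm]
  rw [← Complex.exp_nat_mul]
  congr 1
  ring

/-- The function on the disc representing `Δ^d * j(d z)`. -/
noncomputable def scaleFun (d : ℕ) (q : ℂ) : ℂ := eulerFun q ^ (24 * d) * jNumFun (q ^ d)

theorem scaleFun_differentiableOn (d : ℕ) (hd : d ≠ 0) :
    DifferentiableOn ℂ (scaleFun d) (Metric.ball (0 : ℂ) 1) := by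
  refine (eulerFun_differentiableOn.fun_pow _).mul ?_
  have h1 : DifferentiableOn ℂ (fun q : ℂ => q ^ d) (Metric.ball (0 : ℂ) 1) := by fun_prop
  refine jNumFun_differentiableOn.comp h1 ?_
  intro q hq
  have hq' : ‖q‖ < 1 := by simpa using hq
  have : ‖q ^ d‖ < 1 := by
    rw [norm_pow]; exact pow_lt_one₀ (norm_nonneg _) hq' hd
  simpa using this

theorem discriminant_pow_mul_jFn_scale_eq {d : ℕ} (m : ℍ → ℍ)
    (hm : ∀ z : ℍ, (m z : ℂ) = (d : ℂ) * z) (z : ℍ) :
    Δ z ^ d * jFn (m z) = scaleFun d (𝕢 1 z) := by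
  have hq0 : 𝕢 1 (z : ℂ) ≠ 0 := Periodic.qParam_ne_zero _
  have h1 := jNumFun_qParam (m z)
  rw [qParam_scale m hm z] at h1
  rw [scaleFun, h1, discriminant_eq_qParam_mul_eulerFun, mul_pow, ← pow_mul]
  ring

theorem taylorPS_scaleFun (d : ℕ) (hd : d ≠ 0) :
    taylorPS (scaleFun d) =
      (ModularCurve.dedekindEtaUnit ^ d * ModularCurve.jNum.expand d hd).map
        (Int.castRingHom ℂ) := by
  have hjd : DifferentiableOn ℂ (fun q : ℂ => jNumFun (q ^ d)) (Metric.ball (0 : ℂ) 1) := by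
    have h1 : DifferentiableOn ℂ (fun q : ℂ => q ^ d) (Metric.ball (0 : ℂ) 1) := by fun_prop
    refine jNumFun_differentiableOn.comp h1 ?_
    intro q hq
    have hq' : ‖q‖ < 1 := by simpa using hq
    have : ‖q ^ d‖ < 1 := by
      rw [norm_pow]; exact pow_lt_one₀ (norm_nonneg _) hq' hd
    simpa using this
  have han : AnalyticAt ℂ (fun q : ℂ => jNumFun (q ^ d)) 0 :=
    hjd.analyticAt (Metric.ball_mem_nhds 0 one_pos)
  have : scaleFun d = (fun q => eulerFun q ^ (24 * d)) * (fun q => jNumFun (q ^ d)) := by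
    funext q; rfl
  rw [this, taylorPS_mul (eulerFun_analyticAt_zero.fun_pow _) han,
    taylorPS_pow eulerFun_analyticAt_zero, taylorPS_eulerFun,
    taylorPS_comp_pow jNumFun_differentiableOn d hd, taylorPS_jNumFun, map_mul, map_pow,
    ModularCurve.dedekindEtaUnit, map_pow, ← pow_mul, PowerSeries.map_expand]

/-- The `q`-expansion of `Δ^d * j(d z)`. -/
theorem qExpansion_discriminant_pow_mul_jFn_scale {d : ℕ} (hd : d ≠ 0) (m : ℍ → ℍ)
    (hm : ∀ z : ℍ, (m z : ℂ) = (d : ℂ) * z) :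
    qExpansion 1 (fun z : ℍ => Δ z ^ d * jFn (m z)) =
      (ModularCurve.dedekindEtaUnit ^ d * ModularCurve.jNum.expand d hd).map
        (Int.castRingHom ℂ) := by
  have hc : ContinuousAt (scaleFun d) 0 :=
    ((scaleFun_differentiableOn d hd).analyticAt (Metric.ball_mem_nhds 0 one_pos)).continuousAt
  rw [qExpansion_eq_taylorPS_of_comp_qParam hc (discriminant_pow_mul_jFn_scale_eq m hm),
    taylorPS_scaleFun d hd]

theorem isBoundedAtImInfty_discriminant_pow_mul_jFn_scale {d : ℕ} (hd : d ≠ 0) (m : ℍ → ℍ)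
    (hm : ∀ z : ℍ, (m z : ℂ) = (d : ℂ) * z) :
    IsBoundedAtImInfty (fun z : ℍ => Δ z ^ d * jFn (m z)) :=
  isBoundedAtImInfty_of_comp_qParam
    ((scaleFun_differentiableOn d hd).analyticAt (Metric.ball_mem_nhds 0 one_pos)).continuousAt
    (discriminant_pow_mul_jFn_scale_eq m hm)

/-- The `q`-expansion of `Δ^k`. -/
theorem qExpansion_discriminant_pow (k : ℕ) :
    qExpansion 1 (fun z : ℍ => Δ z ^ k) =
      ((PowerSeries.X * ModularCurve.dedekindEtaUnit) ^ k).map (Int.castRingHom ℂ) := by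
  have hF : AnalyticAt ℂ (fun q : ℂ => q * eulerFun q ^ 24) 0 :=
    analyticAt_id.mul (eulerFun_analyticAt_zero.fun_pow 24)
  have hc : ContinuousAt (fun q : ℂ => (q * eulerFun q ^ 24) ^ k) 0 :=
    (hF.fun_pow k).continuousAt
  rw [qExpansion_eq_taylorPS_of_comp_qParam hc
    (fun z => by rw [discriminant_eq_qParam_mul_eulerFun]),
    taylorPS_pow hF, taylorPS_fun_mul (F := fun q => q) (G := fun q => eulerFun q ^ 24)
      analyticAt_id (eulerFun_analyticAt_zero.fun_pow 24),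
    taylorPS_X, taylorPS_pow eulerFun_analyticAt_zero, taylorPS_eulerFun,
    ModularCurve.dedekindEtaUnit]
  simp


section Laurent

open HahnSeries

theorem qExpand_ofPowerSeries {R : Type*} [CommRing R] (N : ℕ) [NeZero N] (f : PowerSeries R) :
    ModularCurve.qExpand R N (ofPowerSeries ℤ R f) =
      ofPowerSeries ℤ R (f.expand N (NeZero.ne N)) := by
  ext k
  rcases lt_or_ge k 0 with hk | hk
  · rw [ModularCurve.ofPowerSeries_coeff_of_neg _ hk]
    by_cases hdvd : (N : ℤ) ∣ k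
    · obtain ⟨m, rfl⟩ := hdvd
      rw [ModularCurve.qExpand_coeff_mul]
      have hN : (0 : ℤ) < N := by exact_mod_cast Nat.pos_of_ne_zero (NeZero.ne N)
      have hm : m < 0 := by
        by_contra hm
        push Not at hm
        have : 0 ≤ (N : ℤ) * m := mul_nonneg hN.le hm
        omega
      exact ModularCurve.ofPowerSeries_coeff_of_neg _ hm
    · exact ModularCurve.qExpand_coeff_of_not_dvd N _ hdvd
  · obtain ⟨n, rfl⟩ := Int.eq_ofNat_of_zero_le hk
    rw [ofPowerSeries_apply_coeff, PowerSeries.coeff_expand]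
    split_ifs with hdvd
    · obtain ⟨m, rfl⟩ := hdvd
      rw [Nat.mul_div_cancel_left _ (Nat.pos_of_ne_zero (NeZero.ne N))]
      have : ((N * m : ℕ) : ℤ) = (N : ℤ) * (m : ℤ) := by push_cast; ring
      rw [this, ModularCurve.qExpand_coeff_mul, ofPowerSeries_apply_coeff]
    · refine ModularCurve.qExpand_coeff_of_not_dvd N _ ?_
      intro h
      exact hdvd (by exact_mod_cast h)

theorem coeffMap_ofPowerSeries {R S : Type*} [CommRing R] [CommRing S] (φ : R →+* S)
    (f : PowerSeries R) :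
    ModularCurve.coeffMap φ (ofPowerSeries ℤ R f) = ofPowerSeries ℤ S (f.map φ) := by
  ext k
  rw [ModularCurve.coeffMap_coeff]
  rcases lt_or_ge k 0 with hk | hk
  · rw [ModularCurve.ofPowerSeries_coeff_of_neg _ hk, ModularCurve.ofPowerSeries_coeff_of_neg _ hk,
      map_zero]
  · obtain ⟨n, rfl⟩ := Int.eq_ofNat_of_zero_le hk
    rw [ofPowerSeries_apply_coeff, ofPowerSeries_apply_coeff, PowerSeries.coeff_map]

/-- The Prelude series `j(q^d)` over `ℂ`. -/
theorem coeffMap_qExpand_jq (d : ℕ) [NeZero d] :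
    ModularCurve.coeffMap (algebraMap ℚ ℂ) (ModularCurve.qExpand ℚ d ModularCurve.jq) =
      single (-(d : ℤ)) (1 : ℂ) * ofPowerSeries ℤ ℂ
        ((ModularCurve.jNum.expand d (NeZero.ne d)).map (Int.castRingHom ℂ)) := by
  rw [ModularCurve.jq, map_mul, map_mul, ModularCurve.qExpand_single, ModularCurve.coeffMap_single,
    qExpand_ofPowerSeries, coeffMap_ofPowerSeries, ModularCurve.jNumQ, map_one, mul_neg_one,
    ← PowerSeries.map_expand]
  congr 2

/-- Laurent series identity: the `q`-expansion of `Δ^d j(d z)` is `j(q^d)` times that of `Δ^d`. -/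
theorem ofPowerSeries_scale_eq (d : ℕ) [NeZero d] :
    ofPowerSeries ℤ ℂ ((ModularCurve.dedekindEtaUnit ^ d *
        ModularCurve.jNum.expand d (NeZero.ne d)).map (Int.castRingHom ℂ)) =
      ModularCurve.coeffMap (algebraMap ℚ ℂ) (ModularCurve.qExpand ℚ d ModularCurve.jq) *
        ofPowerSeries ℤ ℂ (((PowerSeries.X * ModularCurve.dedekindEtaUnit) ^ d).map
          (Int.castRingHom ℂ)) := by
  rw [coeffMap_qExpand_jq]
  simp only [map_mul, map_pow, mul_pow, PowerSeries.map_X, ofPowerSeries_X]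
  have h1 : single (-(d : ℤ)) (1 : ℂ) * (single (1 : ℤ) (1 : ℂ)) ^ d = 1 := by
    rw [single_pow, single_mul_single]
    simp
  set U := (ofPowerSeries ℤ ℂ) ((PowerSeries.map (Int.castRingHom ℂ)) ModularCurve.dedekindEtaUnit)
  set J := (ofPowerSeries ℤ ℂ) ((PowerSeries.map (Int.castRingHom ℂ))
    ((PowerSeries.expand d (NeZero.ne d)) ModularCurve.jNum))
  calc U ^ d * J = (single (-(d : ℤ)) (1 : ℂ) * (single (1 : ℤ) (1 : ℂ)) ^ d) * (U ^ d * J) := by
        rw [h1, one_mul]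
    _ = _ := by ring

/-- The Laurent series identity for the analytic `q`-expansions: with `jd z = jFn (d z)`,
`qExp (Δ^d * jd) = j(q^d) * qExp (Δ^d)` in `ℂ((q))`. -/
theorem ofPowerSeries_qExpansion_scale (d : ℕ) [NeZero d] (m : ℍ → ℍ)
    (hm : ∀ z : ℍ, (m z : ℂ) = (d : ℂ) * z) :
    ofPowerSeries ℤ ℂ (qExpansion 1 (fun z : ℍ => Δ z ^ d * jFn (m z))) =
      ModularCurve.coeffMap (algebraMap ℚ ℂ) (ModularCurve.qExpand ℚ d ModularCurve.jq) *
        ofPowerSeries ℤ ℂ (qExpansion 1 (fun z : ℍ => Δ z ^ d)) := by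
  rw [qExpansion_discriminant_pow_mul_jFn_scale (NeZero.ne d) m hm, qExpansion_discriminant_pow,
    ofPowerSeries_scale_eq]

theorem qExpansion_discriminant_pow_ne_zero (k : ℕ) :
    qExpansion 1 (fun z : ℍ => Δ z ^ k) ≠ 0 := by
  rw [qExpansion_discriminant_pow]
  intro h
  have h1 := congrArg (PowerSeries.coeff k) h
  rw [PowerSeries.coeff_map, mul_pow, PowerSeries.coeff_X_pow_mul', if_pos le_rfl, Nat.sub_self,
    PowerSeries.coeff_zero_eq_constantCoeff, map_pow, ModularCurve.constantCoeff_dedekindEtaUnit]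
    at h1
  simp at h1

/-- Division form: `qExp (Δ^d * jd) / qExp (Δ^d) = j(q^d)` in `ℂ((q))`. -/
theorem ofPowerSeries_qExpansion_scale_div (d : ℕ) [NeZero d] (m : ℍ → ℍ)
    (hm : ∀ z : ℍ, (m z : ℂ) = (d : ℂ) * z) :
    ofPowerSeries ℤ ℂ (qExpansion 1 (fun z : ℍ => Δ z ^ d * jFn (m z))) /
        ofPowerSeries ℤ ℂ (qExpansion 1 (fun z : ℍ => Δ z ^ d)) =
      ModularCurve.coeffMap (algebraMap ℚ ℂ) (ModularCurve.qExpand ℚ d ModularCurve.jq) := by
  have hne : ofPowerSeries ℤ ℂ (qExpansion 1 (fun z : ℍ => Δ z ^ d)) ≠ 0 := by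
    intro h
    exact qExpansion_discriminant_pow_ne_zero d
      (ofPowerSeries_injective (by rw [h, map_zero]))
  rw [ofPowerSeries_qExpansion_scale d m hm, mul_div_assoc, div_self hne, mul_one]

end Laurent

end Fermat.Agent.S24.JQExp
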